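import Fermat.Agent.Erdos.SchurExponential

/-!
# Schur's irreducibility theorem

`∑ j ≤ n, a_j X ^ j / j!` with integers `a_j`, `|a₀| = |a_n| = 1`, is irreducible: as for the
truncated exponential, a prime `p > k` dividing one of `n, …, n - k + 1` makes a root of a factor of
degree `k` too small, the term `a₀ n!` being strictly the largest there.
-/

set_option autoImplicit false

noncomputable section

open Finset Polynomial
open scoped Nat

namespace FA.SchurIrreducible

/-- `n! ∑ j ≤ n, a_j X ^ j / j!`. -/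
def weighted (a : ℕ → ℤ) (n : ℕ) : ℤ[X] :=
  ∑ j ∈ range (n + 1), C (a j * (n.descFactorial (n - j) : ℤ)) * X ^ j

theorem coeff_weighted (a : ℕ → ℤ) (n j : ℕ) :
    (weighted a n).coeff j = if j ≤ n then a j * (n.descFactorial (n - j) : ℤ) else 0 := by
  simp only [weighted, finsetSum_coeff, coeff_C_mul, coeff_X_pow, mul_ite, mul_one, mul_zero,
    sum_ite_eq, mem_range, Nat.lt_succ_iff]

theorem natDegree_weighted {a : ℕ → ℤ} {n : ℕ} (han : a n ≠ 0) : (weighted a n).natDegree = n := by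
  refine natDegree_eq_of_le_of_coeff_ne_zero (natDegree_le_iff_coeff_eq_zero.2 fun j hj => ?_) ?_
  · rw [coeff_weighted, if_neg (by omega)]
  · simpa [coeff_weighted] using han

theorem monic_weighted {a : ℕ → ℤ} {n : ℕ} (han : a n = 1) : (weighted a n).Monic := by
  rw [Monic, leadingCoeff, natDegree_weighted (by rw [han]; norm_num), coeff_weighted,
    if_pos le_rfl, Nat.sub_self, Nat.descFactorial_zero, Nat.cast_one, han, one_mul]

/-- A small root is no root of the weighted polynomial. -/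
theorem not_isRoot_weighted (p : ℕ) [hp : Fact p.Prime] {a : ℕ → ℤ} {n k : ℕ} (hn : 1 ≤ n)
    (hk : 1 ≤ k) (hkp : k < p) (ha : ‖(a 0 : PadicAlgCl p)‖ = 1) {β : PadicAlgCl p}
    (hβ : ‖β‖ ^ k ≤ (p : ℝ)⁻¹) :
    ¬((weighted a n).map (Int.castRingHom (PadicAlgCl p))).IsRoot β := fun h => by
  rw [IsRoot.def, weighted, Polynomial.map_sum, eval_finsetSum] at h
  simp only [Polynomial.map_mul, Polynomial.map_intCast, Polynomial.map_natCast, eval_intCast,
    eval_natCast, Polynomial.map_pow, map_X, eval_mul, eval_pow, eval_X, map_mul, eq_intCast,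
    map_natCast] at h
  rw [← Finset.add_sum_erase _ _ (mem_range.2 (by omega : 0 < n + 1)), pow_zero, mul_one,
    Nat.sub_zero, Nat.descFactorial_self, add_eq_zero_iff_eq_neg] at h
  obtain ⟨j, hj, hle⟩ := IsUltrametricDist.exists_norm_finsetSum_le_of_nonempty
    (show ((range (n + 1)).erase 0).Nonempty from
      ⟨1, mem_erase.2 ⟨one_ne_zero, mem_range.2 (by omega)⟩⟩)
    fun i => (a i : PadicAlgCl p) * (n.descFactorial (n - i) : PadicAlgCl p) * β ^ i
  rw [← norm_neg, ← h, norm_mul, ha, one_mul, norm_mul, norm_mul, norm_pow, mul_assoc] at hle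
  replace hle := hle.trans (mul_le_of_le_one_left (by positivity)
    (IsUltrametricDist.norm_intCast_le_one (PadicAlgCl p) (a j)))
  obtain ⟨hj0, hjn⟩ := mem_erase.1 hj
  rw [mem_range] at hjn
  have hfac := Nat.factorial_mul_descFactorial (Nat.sub_le n j)
  rw [show n - (n - j) = j by omega] at hfac
  rw [← hfac, Nat.cast_mul, norm_mul, mul_comm ‖((j ! : ℕ) : PadicAlgCl p)‖] at hle
  have hpos : 0 < ‖((n.descFactorial (n - j) : ℕ) : PadicAlgCl p)‖ :=
    norm_pos_iff.2 (Nat.cast_ne_zero.2 (by rw [Ne, Nat.descFactorial_eq_zero_iff_lt]; omega))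
  have h1 : ‖((j ! : ℕ) : PadicAlgCl p)‖ ≤ ‖β‖ ^ j := le_of_mul_le_mul_left hle hpos
  rw [SchurExp.norm_natCast_eq p (Nat.factorial_ne_zero j)] at h1
  have hv : k * padicValNat p j ! < j := by
    have e := sub_one_mul_padicValNat_factorial (p := p) j
    have hdig : (p.digits j).sum ≠ 0 := fun h0 => by
      rw [List.sum_eq_zero_iff] at h0
      exact Nat.getLast_digit_ne_zero p hj0 (h0 _ (List.getLast_mem _))
    have := Nat.mul_le_mul_right (padicValNat p j !) (show k ≤ p - 1 by omega)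
    omega
  have hb := (pow_le_pow_left₀ (by positivity) h1 k).trans_eq (pow_right_comm ‖β‖ j k)
  have hb' := hb.trans (pow_le_pow_left₀ (by positivity) hβ j)
  rw [← pow_mul, mul_comm (padicValNat p j !)] at hb'
  have hp1 : (1 : ℝ) < p := by exact_mod_cast hp.out.one_lt
  exact absurd hb' (not_le.2 (pow_lt_pow_right_of_lt_one₀ (by positivity)
    (inv_lt_one_of_one_lt₀ hp1) hv))

/-- The monic weighted polynomial with `|a₀| = 1` is irreducible. -/
theorem irreducible_weighted {a : ℕ → ℤ} {n : ℕ} (hn : 1 ≤ n) (ha0 : a 0 = 1 ∨ a 0 = -1)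
    (han : a n = 1) : Irreducible (weighted a n) := by
  have han0 : a n ≠ 0 := by rw [han]; norm_num
  have hne : weighted a n ≠ 1 := fun e => by
    have := natDegree_weighted han0
    rw [e, natDegree_one] at this
    omega
  refine ((monic_weighted han).irreducible_iff_natDegree').2
    ⟨hne, fun f g hf hg hfg hdeg => ?_⟩
  rw [mem_Ioc, natDegree_weighted han0] at hdeg
  obtain ⟨k, hk⟩ : ∃ k, g.natDegree = k := ⟨_, rfl⟩
  rw [hk] at hdeg
  obtain ⟨p, hp, hpk, hpd⟩ := FA.Erdos.exists_prime_gt_dvd_choose (n := n) (k := k) hdeg.1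
    (by omega)
  have : Fact p.Prime := ⟨hp⟩
  obtain ⟨x, hx, hxd⟩ := hp.prime.exists_mem_finset_dvd (s := Ioc (n - k) n) (f := fun y => y) (by
    rw [← FA.Erdos.descFactorial_eq_prod_Ioc (show k ≤ n by omega),
      Nat.descFactorial_eq_factorial_mul_choose]
    exact hpd.mul_left _)
  obtain ⟨hx1, hx2⟩ := mem_Ioc.1 hx
  set red := Int.castRingHom (ZMod p)
  have hX : (X : (ZMod p)[X]) ^ x ∣ f.map red * g.map red := by
    rw [← Polynomial.map_mul, hfg, X_pow_dvd_iff]
    intro j hj
    rw [coeff_map, coeff_weighted, if_pos (by omega), map_mul, map_natCast]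
    refine mul_eq_zero_of_right _ ?_
    rw [ZMod.natCast_eq_zero_iff, FA.Erdos.descFactorial_eq_prod_Ioc (Nat.sub_le n j)]
    exact hxd.trans (dvd_prod_of_mem _ (mem_Ioc.2 ⟨by omega, hx2⟩))
  have hg0 : (p : ℤ) ∣ g.coeff 0 := by
    by_contra hcon
    have hcop : ¬(X : (ZMod p)[X]) ∣ g.map red := by
      rwa [X_dvd_iff, coeff_map, eq_intCast, ZMod.intCast_zmod_eq_zero_iff_dvd]
    have hd := natDegree_le_of_dvd (Prime.pow_dvd_of_dvd_mul_right prime_X x hcop hX)
      (hf.map red).ne_zero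
    rw [natDegree_X_pow, hf.natDegree_map] at hd
    have := hf.natDegree_mul hg
    rw [hfg, natDegree_weighted han0] at this
    omega
  obtain ⟨β, hroot, hβ⟩ := SchurExp.exists_small_root p hg (by omega) hg0
  rw [hk] at hβ
  refine not_isRoot_weighted p (a := a) hn hdeg.1 hpk ?_ hβ ?_
  · rcases ha0 with h | h <;> simp [h]
  · rw [← hfg, Polynomial.map_mul]
    exact root_mul_left_of_isRoot _ hroot

/-- **Schur's irreducibility theorem.** -/
theorem irreducible_schur (a : ℕ → ℤ) {n : ℕ} (hn : 1 ≤ n) (ha0 : a 0 = 1 ∨ a 0 = -1)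
    (han : a n = 1 ∨ a n = -1) :
    Irreducible (∑ j ∈ range (n + 1), C ((a j : ℚ) / (j ! : ℚ)) * X ^ j) := by
  obtain ⟨ε, hε, hεn⟩ : ∃ ε : ℤ, (ε = 1 ∨ ε = -1) ∧ ε * a n = 1 := by
    rcases han with h | h
    · exact ⟨1, Or.inl rfl, by rw [h]; norm_num⟩
    · exact ⟨-1, Or.inr rfl, by rw [h]; norm_num⟩
  set b : ℕ → ℤ := fun j => ε * a j
  have hb0 : b 0 = 1 ∨ b 0 = -1 := by
    rcases hε with rfl | rfl <;> rcases ha0 with h | h <;> simp [b, h]
  have h1 := (IsPrimitive.Int.irreducible_iff_irreducible_map_cast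
    (monic_weighted (a := b) hεn).isPrimitive).1
    (irreducible_weighted hn hb0 hεn)
  have hε0 : (ε : ℚ) ≠ 0 := by rcases hε with rfl | rfl <;> norm_num
  have hfac : (n ! : ℚ) ≠ 0 := Nat.cast_ne_zero.2 n.factorial_ne_zero
  have e : C ((ε : ℚ) * (n ! : ℚ)) * ∑ j ∈ range (n + 1), C ((a j : ℚ) / (j ! : ℚ)) * X ^ j =
      (weighted b n).map (Int.castRingHom ℚ) := by
    rw [weighted, Polynomial.map_sum, Finset.mul_sum]
    refine sum_congr rfl fun j hj => ?_
    rw [mem_range] at hj
    rw [Polynomial.map_mul, Polynomial.map_C, Polynomial.map_pow, map_X, ← mul_assoc, ← C_mul]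
    have hd := Nat.factorial_mul_descFactorial (show n - j ≤ n from Nat.sub_le n j)
    rw [show n - (n - j) = j by omega] at hd
    congr 2
    simp only [eq_intCast, Int.cast_mul, Int.cast_natCast, b]
    rw [← hd, Nat.cast_mul]
    have : (j ! : ℚ) ≠ 0 := Nat.cast_ne_zero.2 j.factorial_ne_zero
    field_simp
  rw [← e, irreducible_isUnit_mul (isUnit_C.2 (isUnit_iff_ne_zero.2 (mul_ne_zero hε0 hfac)))] at h1
  exact h1

/-- **The Laguerre polynomials are irreducible.** -/
theorem irreducible_laguerre {n : ℕ} (hn : 1 ≤ n) :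
    Irreducible (∑ j ∈ range (n + 1),
      C ((-1) ^ j * (n.choose j : ℚ) / (j ! : ℚ)) * X ^ j) := by
  have h := irreducible_schur (fun j => (-1) ^ j * (n.choose j : ℤ)) hn (Or.inl (by simp))
    (by rw [Nat.choose_self, Nat.cast_one, mul_one]; exact neg_one_pow_eq_or ℤ n)
  simpa using h

end FA.SchurIrreducible

end
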